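import Mathlib

/-!
# Weak Chebotarev library, B1: counting primes of degree one in a fixed field
(owner: helper67)
-/

set_option autoImplicit false
set_option linter.unusedSectionVars false

namespace Fermat.Agent.Lib.Cheb

open NumberField
open scoped Pointwise

namespace FrobCount

section General

lemma span_isPrime {p : ℕ} (hp : p.Prime) : (Ideal.span {(p : ℤ)}).IsPrime :=
  (Ideal.span_singleton_prime (by exact_mod_cast hp.ne_zero)).mpr (Nat.prime_iff_prime_int.mp hp)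

lemma span_isMaximal {p : ℕ} (hp : p.Prime) : (Ideal.span {(p : ℤ)}).IsMaximal :=
  (span_isPrime hp).isMaximal (by simpa using hp.ne_zero)

lemma liesOver {M : Type*} [Field M] [NumberField M] {p : ℕ} (hp : p.Prime)
    (Q : Ideal (𝓞 M)) [Q.IsPrime] (hQ : (p : 𝓞 M) ∈ Q) : Q.LiesOver (Ideal.span {(p : ℤ)}) := by
  refine ⟨(span_isMaximal hp).eq_of_le ?_ ?_⟩
  · exact (Ideal.IsPrime.under ℤ Q).ne_top
  · rw [Ideal.span_singleton_le_iff_mem, Ideal.mem_comap]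
    simpa using hQ

lemma card_int_quot {M : Type*} [Field M] [NumberField M] {p : ℕ} (hp : p.Prime)
    (Q : Ideal (𝓞 M)) [Q.IsPrime] (hQ : (p : 𝓞 M) ∈ Q) : Nat.card (ℤ ⧸ Q.under ℤ) = p := by
  rw [← (liesOver hp Q hQ).over]
  exact Int.card_ideal_quot p

lemma ne_bot_of_mem {M : Type*} [Field M] [NumberField M] {p : ℕ} (hp : p.Prime)
    (Q : Ideal (𝓞 M)) (hQ : (p : 𝓞 M) ∈ Q) : Q ≠ ⊥ := by
  rintro rfl
  have : (p : 𝓞 M) = 0 := by simpa using hQ
  exact hp.ne_zero (by exact_mod_cast this)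

/-- a finite field all of whose elements satisfy `y ^ (ℓ ^ m) = y` has at most `ℓ ^ m`
elements -/
lemma card_le_of_forall_pow_eq {F : Type*} [Field F] [Finite F] {ℓ m : ℕ} (hℓ : 1 < ℓ)
    (hm : m ≠ 0) (h : ∀ y : F, y ^ (ℓ ^ m) = y) : Nat.card F ≤ ℓ ^ m := by
  classical
  have := Fintype.ofFinite F
  have hne : (Polynomial.X ^ ℓ ^ m - Polynomial.X : Polynomial F) ≠ 0 :=
    FiniteField.X_pow_card_pow_sub_X_ne_zero F hm hℓ
  have hsub : (Finset.univ : Finset F) ⊆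
      (Polynomial.X ^ ℓ ^ m - Polynomial.X : Polynomial F).roots.toFinset := by
    intro y _
    rw [Multiset.mem_toFinset, Polynomial.mem_roots hne]
    simp [h y]
  calc Nat.card F = (Finset.univ : Finset F).card := by
        rw [Nat.card_eq_fintype_card, Finset.card_univ]
    _ ≤ (Polynomial.X ^ ℓ ^ m - Polynomial.X : Polynomial F).roots.toFinset.card :=
        Finset.card_le_card hsub
    _ ≤ Multiset.card (Polynomial.X ^ ℓ ^ m - Polynomial.X : Polynomial F).roots :=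
        Multiset.toFinset_card_le _
    _ ≤ (Polynomial.X ^ ℓ ^ m - Polynomial.X : Polynomial F).natDegree :=
        Polynomial.card_roots' _
    _ = ℓ ^ m := FiniteField.X_pow_card_pow_sub_X_natDegree_eq F hm hℓ

/-- a prime ideal over `p` modulo which `x ^ p = x` identically has norm `p`. -/
lemma absNorm_eq_of_forall {M : Type*} [Field M] [NumberField M] {p : ℕ} (hp : p.Prime)
    (q : Ideal (𝓞 M)) [q.IsPrime] (hq : (p : 𝓞 M) ∈ q) (h : ∀ x : 𝓞 M, x - x ^ p ∈ q) :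
    Ideal.absNorm q = p := by
  have hq0 := ne_bot_of_mem hp q hq
  have hlo := liesOver hp q hq
  have hqmax : q.IsMaximal := Ideal.IsPrime.isMaximal inferInstance hq0
  let _ : Field (𝓞 M ⧸ q) := Ideal.Quotient.field q
  have hfin : Finite (𝓞 M ⧸ q) := Ideal.finiteQuotientOfFreeOfNeBot q hq0
  have hall : ∀ y : 𝓞 M ⧸ q, y ^ (p ^ 1) = y := by
    intro y
    obtain ⟨x, rfl⟩ := Ideal.Quotient.mk_surjective y
    rw [pow_one, ← map_pow]
    exact ((Ideal.Quotient.mk_eq_mk_iff_sub_mem _ _).mpr (h x)).symm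
  have hle := card_le_of_forall_pow_eq hp.one_lt one_ne_zero hall
  have hnorm : Ideal.absNorm q = p ^ q.inertiaDeg ℤ := by
    have := Ideal.natAbs_pow_inertiaDeg (p : ℤ) q
    rw [Int.natAbs_natCast] at this
    exact this.symm
  have hcard : Nat.card (𝓞 M ⧸ q) = Ideal.absNorm q := rfl
  rw [hcard, hnorm] at hle
  have h1 : q.inertiaDeg ℤ ≤ 1 := (Nat.pow_le_pow_iff_right hp.one_lt).mp hle
  have h2 : 0 < q.inertiaDeg ℤ := Ideal.inertiaDeg_pos q ℤ
  have h3 : q.inertiaDeg ℤ = 1 := by omega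
  rw [hnorm, h3, pow_one]

end General

variable {L : Type*} [Field L] [NumberField L] [IsGalois ℚ L] (H : Subgroup (L ≃ₐ[ℚ] L))

theorem coe_smul' (g : L ≃ₐ[ℚ] L) (x : 𝓞 L) : ((g • x : 𝓞 L) : L) = g (x : L) := rfl

theorem smul_algebraMap' (h : L ≃ₐ[ℚ] L) (hh : h ∈ H) (x : 𝓞 (IntermediateField.fixedField H)) :
    h • (algebraMap (𝓞 (IntermediateField.fixedField H)) (𝓞 L) x)
      = algebraMap (𝓞 (IntermediateField.fixedField H)) (𝓞 L) x := by
  apply RingOfIntegers.ext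
  rw [coe_smul']
  exact (x : IntermediateField.fixedField H).2 ⟨h, hh⟩

instance instSMulComm : SMulCommClass H (𝓞 (IntermediateField.fixedField H)) (𝓞 L) :=
  ⟨fun h a x => by
    rw [Algebra.smul_def, Algebra.smul_def, smul_mul']
    congr 1
    exact smul_algebraMap' H h.1 h.2 a⟩

instance instInvariant : Algebra.IsInvariant (𝓞 (IntermediateField.fixedField H)) (𝓞 L) H :=
  ⟨fun x hx => by
    have hmem : (x : L) ∈ IntermediateField.fixedField H := fun h =>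
      congrArg (fun y : 𝓞 L => (y : L)) (hx h)
    have hint : IsIntegral ℤ (⟨(x : L), hmem⟩ : IntermediateField.fixedField H) := by
      have := RingOfIntegers.isIntegral_coe x
      exact (isIntegral_algebraMap_iff
        (algebraMap (IntermediateField.fixedField H) L).injective).mp this
    exact ⟨⟨⟨(x : L), hmem⟩, hint⟩, RingOfIntegers.ext rfl⟩⟩

theorem natCast_mem_smul {p : ℕ} {P : Ideal (𝓞 L)} (hP : (p : 𝓞 L) ∈ P) (g : L ≃ₐ[ℚ] L) :
    (p : 𝓞 L) ∈ g • P := by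
  have : g • (p : 𝓞 L) ∈ g • P := Ideal.smul_mem_pointwise_smul_iff.mpr hP
  have h2 : g • (p : 𝓞 L) = (p : 𝓞 L) :=
    map_natCast (MulSemiringAction.toRingHom (L ≃ₐ[ℚ] L) (𝓞 L) g) p
  rwa [h2] at this

theorem natCast_mem_under {p : ℕ} {Q : Ideal (𝓞 L)} (hQ : (p : 𝓞 L) ∈ Q) :
    (p : 𝓞 (IntermediateField.fixedField H)) ∈ Q.under (𝓞 (IntermediateField.fixedField H)) := by
  rw [Ideal.under, Ideal.mem_comap, map_natCast]
  exact hQ

/-- (A) -/
theorem absNorm_under_eq {p : ℕ} (hp : p.Prime) (Q : Ideal (𝓞 L)) [Q.IsPrime]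
    (hQ : (p : 𝓞 L) ∈ Q) (τ : L ≃ₐ[ℚ] L) (hτH : τ ∈ H) (hτ : IsArithFrobAt ℤ τ Q) :
    Ideal.absNorm (Q.under (𝓞 (IntermediateField.fixedField H))) = p := by
  apply absNorm_eq_of_forall hp _ (natCast_mem_under H hQ)
  intro x
  rw [Ideal.under, Ideal.mem_comap, map_sub, map_pow]
  have h1 := hτ (algebraMap _ (𝓞 L) x)
  rw [card_int_quot hp Q hQ] at h1
  have h2 : (MulSemiringAction.toAlgHom ℤ (𝓞 L) τ) (algebraMap _ (𝓞 L) x)
      = algebraMap _ (𝓞 L) x := smul_algebraMap' H τ hτH x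
  rwa [h2] at h1

/-- the inertia group of a conjugate prime -/
theorem inertia_smul_eq_bot {P : Ideal (𝓞 L)} (hunr : P.inertia (L ≃ₐ[ℚ] L) = ⊥)
    (g : L ≃ₐ[ℚ] L) : (g • P).inertia (L ≃ₐ[ℚ] L) = ⊥ := by
  rw [eq_bot_iff]
  intro σ hσ
  have h1 : g⁻¹ * σ * g ∈ P.inertia (L ≃ₐ[ℚ] L) := by
    intro x
    have h2 := hσ (g • x)
    have h3 : g⁻¹ • (σ • (g • x) - g • x) ∈ g⁻¹ • (g • P) :=
      Ideal.smul_mem_pointwise_smul_iff.mpr h2
    rw [inv_smul_smul, smul_sub, inv_smul_smul] at h3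
    simpa [mul_smul] using h3
  rw [hunr, Subgroup.mem_bot] at h1
  rw [Subgroup.mem_bot]
  have : σ = g * (g⁻¹ * σ * g) * g⁻¹ := by group
  rw [this, h1]
  group

/-- (D) -/
theorem under_smul_eq (Q : Ideal (𝓞 L)) (h : L ≃ₐ[ℚ] L) (hh : h ∈ H) :
    (h • Q).under (𝓞 (IntermediateField.fixedField H))
      = Q.under (𝓞 (IntermediateField.fixedField H)) := by
  ext x
  rw [Ideal.under, Ideal.under, Ideal.mem_comap, Ideal.mem_comap]
  rw [← smul_algebraMap' H h hh x, Ideal.smul_mem_pointwise_smul_iff, smul_algebraMap' H h hh x]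

/-- iterating the Frobenius congruence -/
lemma mk_pow_smul (ℓ : ℕ) (Q : Ideal (𝓞 L))
    (φ : L ≃ₐ[ℚ] L) (hφ : ∀ x : 𝓞 L, φ • x - x ^ ℓ ∈ Q) (k : ℕ) (x : 𝓞 L) :
    Ideal.Quotient.mk Q (φ ^ k • x) = (Ideal.Quotient.mk Q x) ^ (ℓ ^ k) := by
  induction k generalizing x with
  | zero => simp
  | succ k ih =>
    have h1 : Ideal.Quotient.mk Q (φ • x) = (Ideal.Quotient.mk Q x) ^ ℓ := by
      rw [← map_pow]
      exact (Ideal.Quotient.mk_eq_mk_iff_sub_mem _ _).mpr (hφ x)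
    rw [pow_succ, mul_smul, ih, h1, ← pow_mul, pow_succ, mul_comm]

/-- a Frobenius element at a prime with trivial inertia generates the decomposition group -/
theorem zpowers_eq_stabilizer {p : ℕ} (hp : p.Prime) (P : Ideal (𝓞 L)) [P.IsPrime]
    (hP : (p : 𝓞 L) ∈ P) (φ : L ≃ₐ[ℚ] L) (hφ : IsArithFrobAt ℤ φ P)
    (hunr : P.inertia (L ≃ₐ[ℚ] L) = ⊥) :
    Subgroup.zpowers φ = MulAction.stabilizer (L ≃ₐ[ℚ] L) P := by
  have hpp := span_isPrime hp
  have hlo := liesOver hp P hP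
  have hP0 := ne_bot_of_mem hp P hP
  have hPmax : P.IsMaximal := Ideal.IsPrime.isMaximal inferInstance hP0
  let _ : Field (𝓞 L ⧸ P) := Ideal.Quotient.field P
  have hfin : Finite (𝓞 L ⧸ P) := Ideal.finiteQuotientOfFreeOfNeBot P hP0
  have hstab : φ ∈ MulAction.stabilizer (L ≃ₐ[ℚ] L) P := hφ.mem_stabilizer
  have hφ' : ∀ x : 𝓞 L, φ • x - x ^ p ∈ P := by
    intro x
    have := hφ x
    rwa [card_int_quot hp P hP] at this
  have hcard : Nat.card (MulAction.stabilizer (L ≃ₐ[ℚ] L) P) = P.inertiaDeg ℤ := by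
    rw [Ideal.card_stabilizer_eq (Ideal.span {(p : ℤ)}) P,
      ← Ideal.card_inertia_eq_ramificationIdxIn (G := L ≃ₐ[ℚ] L) (Ideal.span {(p : ℤ)}) P,
      hunr, Subgroup.card_bot, one_mul,
      Ideal.inertiaDegIn_eq_inertiaDeg (Ideal.span {(p : ℤ)}) P (L ≃ₐ[ℚ] L)]
  have hnorm : Nat.card (𝓞 L ⧸ P) = p ^ P.inertiaDeg ℤ := by
    have := Ideal.natAbs_pow_inertiaDeg (p : ℤ) P
    rw [Int.natAbs_natCast] at this
    rw [this]
    rfl
  have hm0 : orderOf φ ≠ 0 := (orderOf_pos φ).ne'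
  have hall : ∀ y : 𝓞 L ⧸ P, y ^ (p ^ orderOf φ) = y := by
    intro y
    obtain ⟨x, rfl⟩ := Ideal.Quotient.mk_surjective y
    rw [← mk_pow_smul p P φ hφ', pow_orderOf_eq_one, one_smul]
  have hle := card_le_of_forall_pow_eq hp.one_lt hm0 hall
  rw [hnorm] at hle
  have hf : P.inertiaDeg ℤ ≤ orderOf φ := (Nat.pow_le_pow_iff_right hp.one_lt).mp hle
  refine Subgroup.eq_of_le_of_card_ge ((Subgroup.zpowers_le).mpr hstab) ?_
  rw [hcard, Nat.card_zpowers]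
  exact hf

/-- (B) -/
theorem exists_of_absNorm_eq {p : ℕ} (hp : p.Prime) (P : Ideal (𝓞 L)) [P.IsPrime]
    (hP : (p : 𝓞 L) ∈ P) (φ : L ≃ₐ[ℚ] L) (hφ : IsArithFrobAt ℤ φ P)
    (hunr : P.inertia (L ≃ₐ[ℚ] L) = ⊥)
    (I : Ideal (𝓞 (IntermediateField.fixedField H))) (hI : Ideal.absNorm I = p) :
    ∃ g : L ≃ₐ[ℚ] L, g * φ * g⁻¹ ∈ H ∧
      (g • P).under (𝓞 (IntermediateField.fixedField H)) = I := by
  have hIprime : I.IsPrime := Ideal.isPrime_of_irreducible_absNorm (by rw [hI]; exact hp)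
  have hpI : (p : 𝓞 (IntermediateField.fixedField H)) ∈ I := hI ▸ Ideal.absNorm_mem I
  obtain ⟨Q, -, hQprime, hQI⟩ := Ideal.exists_ideal_over_prime_of_isIntegral I
    (⊥ : Ideal (𝓞 L)) (by
      rw [Ideal.comap_bot_of_injective _
        (FaithfulSMul.algebraMap_injective (𝓞 (IntermediateField.fixedField H)) (𝓞 L))]
      exact bot_le)
  have hpQ : (p : 𝓞 L) ∈ Q := by
    have : (p : 𝓞 (IntermediateField.fixedField H)) ∈ Q.comap (algebraMap _ (𝓞 L)) := hQI ▸ hpI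
    simpa using this
  obtain ⟨g, rfl⟩ := Algebra.IsInvariant.exists_smul_of_under_eq ℤ (𝓞 L) (L ≃ₐ[ℚ] L) P Q
    (by rw [← (liesOver hp P hP).over, ← (liesOver hp Q hpQ).over])
  refine ⟨g, ?_, hQI⟩
  have hfinQ : Finite (𝓞 L ⧸ g • P) :=
    Ideal.finiteQuotientOfFreeOfNeBot _ (ne_bot_of_mem hp _ hpQ)
  obtain ⟨ψ, hψ⟩ := IsArithFrobAt.exists_of_isInvariant
    (𝓞 (IntermediateField.fixedField H)) H (g • P)
  have hψ' : IsArithFrobAt ℤ (ψ : L ≃ₐ[ℚ] L) (g • P) := by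
    intro x
    rw [card_int_quot hp _ hpQ]
    have h1 := hψ x
    have h2 : Nat.card (𝓞 (IntermediateField.fixedField H) ⧸
        (g • P).under (𝓞 (IntermediateField.fixedField H))) = p := by
      rw [Ideal.under, hQI]
      exact hI
    rw [h2] at h1
    exact h1
  have h3 := IsArithFrobAt.mul_inv_mem_inertia (hφ.conj g) hψ'
  rw [inertia_smul_eq_bot hunr g, Subgroup.mem_bot, mul_inv_eq_one] at h3
  rw [h3]
  exact ψ.2

/-- (C) -/
theorem exists_mul_of_under_eq {p : ℕ} (hp : p.Prime) (P : Ideal (𝓞 L)) [P.IsPrime]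
    (hP : (p : 𝓞 L) ∈ P) (φ : L ≃ₐ[ℚ] L) (hφ : IsArithFrobAt ℤ φ P)
    (hunr : P.inertia (L ≃ₐ[ℚ] L) = ⊥) (g g' : L ≃ₐ[ℚ] L) (hg : g * φ * g⁻¹ ∈ H)
    (hu : (g • P).under (𝓞 (IntermediateField.fixedField H))
      = (g' • P).under (𝓞 (IntermediateField.fixedField H))) :
    ∃ h ∈ H, g' = h * g := by
  obtain ⟨h, hh⟩ := Algebra.IsInvariant.exists_smul_of_under_eq
    (𝓞 (IntermediateField.fixedField H)) (𝓞 L) H (g • P) (g' • P) hu
  have hh' : g' • P = (h : L ≃ₐ[ℚ] L) • g • P := hh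
  have hmem : ((h : L ≃ₐ[ℚ] L) * g)⁻¹ * g' ∈ MulAction.stabilizer (L ≃ₐ[ℚ] L) P := by
    rw [MulAction.mem_stabilizer_iff, mul_smul, hh', ← mul_smul (h : L ≃ₐ[ℚ] L) g P,
      inv_smul_smul]
  rw [← zpowers_eq_stabilizer hp P hP φ hφ hunr] at hmem
  obtain ⟨k, hk⟩ := hmem
  refine ⟨h * (g * φ * g⁻¹) ^ k, H.mul_mem h.2 (H.zpow_mem hg k), ?_⟩
  have hk' : φ ^ k = ((h : L ≃ₐ[ℚ] L) * g)⁻¹ * g' := hk
  rw [conj_zpow, hk']
  group

end FrobCount

open FrobCount in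
theorem card_mul_idealCount_eq (L : Type*) [Field L] [NumberField L] [IsGalois ℚ L]
    (H : Subgroup (L ≃ₐ[ℚ] L)) (p : ℕ) (hp : p.Prime)
    (P : Ideal (𝓞 L)) [P.IsPrime] (hP : (p : 𝓞 L) ∈ P)
    (φ : L ≃ₐ[ℚ] L) (hφ : IsArithFrobAt ℤ φ P) (hunr : P.inertia (L ≃ₐ[ℚ] L) = ⊥) :
    Nat.card H *
      Nat.card {I : Ideal (𝓞 (IntermediateField.fixedField H)) // Ideal.absNorm I = p}
      = Nat.card {g : L ≃ₐ[ℚ] L // g * φ * g⁻¹ ∈ H} := by
  classical
  choose s hs1 hs2 using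
    fun I : {I : Ideal (𝓞 (IntermediateField.fixedField H)) // Ideal.absNorm I = p} =>
      exists_of_absNorm_eq H hp P hP φ hφ hunr I.1 I.2
  let e : H × {I : Ideal (𝓞 (IntermediateField.fixedField H)) // Ideal.absNorm I = p} →
      {g : L ≃ₐ[ℚ] L // g * φ * g⁻¹ ∈ H} := fun a =>
    ⟨a.1 * s a.2, by
      have : (a.1 : L ≃ₐ[ℚ] L) * s a.2 * φ * ((a.1 : L ≃ₐ[ℚ] L) * s a.2)⁻¹
          = a.1 * (s a.2 * φ * (s a.2)⁻¹) * (a.1 : L ≃ₐ[ℚ] L)⁻¹ := by group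
      rw [this]
      exact H.mul_mem (H.mul_mem a.1.2 (hs1 a.2)) (H.inv_mem a.1.2)⟩
  have hund : ∀ a, ((e a : L ≃ₐ[ℚ] L) • P).under (𝓞 (IntermediateField.fixedField H))
      = a.2.1 := by
    intro a
    change (((a.1 : L ≃ₐ[ℚ] L) * s a.2) • P).under _ = _
    rw [mul_smul, under_smul_eq H _ _ a.1.2, hs2]
  have hbij : Function.Bijective e := by
    constructor
    · intro a b hab
      have h2 : a.2 = b.2 := by
        apply Subtype.ext
        rw [← hund a, ← hund b, hab]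
      have h1 : (a.1 : L ≃ₐ[ℚ] L) * s a.2 = b.1 * s b.2 := congrArg Subtype.val hab
      rw [h2] at h1
      exact Prod.ext (Subtype.ext (mul_right_cancel h1)) h2
    · intro g
      have hn : Ideal.absNorm ((g.1 • P).under (𝓞 (IntermediateField.fixedField H))) = p :=
        absNorm_under_eq H hp (g.1 • P) (natCast_mem_smul hP g.1) _ g.2 (hφ.conj g.1)
      obtain ⟨h, hh, hgh⟩ := exists_mul_of_under_eq H hp P hP φ hφ hunr (s ⟨_, hn⟩) g.1
        (hs1 ⟨_, hn⟩) (hs2 ⟨_, hn⟩)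
      exact ⟨(⟨h, hh⟩, ⟨_, hn⟩), Subtype.ext hgh.symm⟩
  rw [← Nat.card_prod]
  exact Nat.card_congr (Equiv.ofBijective e hbij)

end Fermat.Agent.Lib.Cheb
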