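import Mathlib

/-!
# Weak Chebotarev library, B2: inertia is trivial outside a finite set of primes
(owner: helper292)
-/

set_option autoImplicit false

namespace Fermat.Agent.Lib.Cheb

open NumberField

namespace Inertia

variable {L : Type*} [Field L] [NumberField L]

/-- A nontrivial automorphism moves some algebraic integer. -/
theorem exists_smul_ne (σ : L ≃ₐ[ℚ] L) (hσ : σ ≠ 1) : ∃ x : 𝓞 L, σ • x - x ≠ 0 := by
  by_contra hcon
  push Not at hcon
  apply hσ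
  ext y
  obtain ⟨a, b, hb, rfl⟩ := IsFractionRing.div_surjective (A := 𝓞 L) y
  have ha : σ (algebraMap (𝓞 L) L a) = algebraMap (𝓞 L) L a := by
    have := congrArg (algebraMap (𝓞 L) L) (sub_eq_zero.mp (hcon a))
    exact this
  have hb' : σ (algebraMap (𝓞 L) L b) = algebraMap (𝓞 L) L b := by
    have := congrArg (algebraMap (𝓞 L) L) (sub_eq_zero.mp (hcon b))
    exact this
  rw [map_div₀, ha, hb', AlgEquiv.one_apply]

/-- If a prime ideal `P` above `p` contains `y`, then `p` divides the norm of `y`. -/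
theorem dvd_norm_of_mem {p : ℕ} (hp : p.Prime) (P : Ideal (𝓞 L)) (hP : P.IsPrime)
    (hpP : (p : 𝓞 L) ∈ P) {y : 𝓞 L} (hy : y ∈ P) : (p : ℤ) ∣ Algebra.norm ℤ y := by
  -- `absNorm P` lies in `P ∩ ℤ = (p)` and divides the norm of `y`
  refine dvd_trans ?_ (Ideal.absNorm_dvd_norm_of_mem hy)
  have h1 : ((Ideal.absNorm P : ℕ) : 𝓞 L) ∈ P := Ideal.absNorm_mem P
  by_contra hnd
  have hcop : IsCoprime (p : ℤ) ((Ideal.absNorm P : ℕ) : ℤ) :=
    ((Nat.prime_iff_prime_int.mp hp).coprime_iff_not_dvd).mpr hnd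
  obtain ⟨a, b, hab⟩ := hcop
  apply hP.ne_top
  rw [Ideal.eq_top_iff_one]
  have h2 : (1 : 𝓞 L) = algebraMap ℤ (𝓞 L) a * (p : 𝓞 L)
      + algebraMap ℤ (𝓞 L) b * ((Ideal.absNorm P : ℕ) : 𝓞 L) := by
    have := congrArg (algebraMap ℤ (𝓞 L)) hab
    simpa using this.symm
  rw [h2]
  exact P.add_mem (P.mul_mem_left _ hpP) (P.mul_mem_left _ h1)

end Inertia

theorem exists_finset_inertia_eq_bot (L : Type*) [Field L] [NumberField L] [IsGalois ℚ L] :
    ∃ T : Finset ℕ, ∀ p : ℕ, p.Prime → p ∉ T → ∀ P : Ideal (𝓞 L), P.IsPrime → (p : 𝓞 L) ∈ P →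
      P.inertia (L ≃ₐ[ℚ] L) = ⊥ := by
  classical
  choose! x hx using fun σ : L ≃ₐ[ℚ] L => Inertia.exists_smul_ne σ
  refine ⟨(Finset.univ.filter fun σ : L ≃ₐ[ℚ] L => σ ≠ 1).biUnion
    fun σ => (Algebra.norm ℤ (σ • x σ - x σ)).natAbs.primeFactors, ?_⟩
  intro p hp hpT P hP hpP
  rw [eq_bot_iff]
  intro σ hσ
  rw [Subgroup.mem_bot]
  by_contra hne
  apply hpT
  rw [Finset.mem_biUnion]
  refine ⟨σ, by simpa using hne, ?_⟩
  have hmem : σ • x σ - x σ ∈ P := hσ (x σ)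
  have hdvd := Inertia.dvd_norm_of_mem hp P hP hpP hmem
  have hn0 : Algebra.norm ℤ (σ • x σ - x σ) ≠ 0 := by
    rw [Ne, Algebra.norm_eq_zero_iff]
    exact hx σ hne
  rw [Nat.mem_primeFactors]
  exact ⟨hp, Int.natCast_dvd.mp hdvd, Int.natAbs_ne_zero.mpr hn0⟩

end Fermat.Agent.Lib.Cheb
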