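import Mathlib

set_option autoImplicit false

open NumberField Filter Topology

namespace Fermat.Agent.Lib.Cheb

variable (K : Type*) [Field K] [NumberField K]

/-- The weight `N(I)^(-s)` of an ideal (zero for the zero ideal when `s ≠ 0`). -/
noncomputable def wt (s : ℝ) (I : Ideal (𝓞 K)) : ℝ := ((Ideal.absNorm I : ℕ) : ℝ) ^ (-s)

/-- number of ideals of norm `n` -/
noncomputable def idealCount (n : ℕ) : ℕ := Nat.card {I : Ideal (𝓞 K) // Ideal.absNorm I = n}

variable {K}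

theorem wt_nonneg (s : ℝ) (I : Ideal (𝓞 K)) : 0 ≤ wt K s I :=
  Real.rpow_nonneg (Nat.cast_nonneg _) _

theorem wt_mul (s : ℝ) (I J : Ideal (𝓞 K)) : wt K s (I * J) = wt K s I * wt K s J := by
  unfold wt
  rw [map_mul, Nat.cast_mul, Real.mul_rpow (Nat.cast_nonneg _) (Nat.cast_nonneg _)]

theorem wt_top (s : ℝ) : wt K s ⊤ = 1 := by
  unfold wt
  rw [Ideal.absNorm_top, Nat.cast_one, Real.one_rpow]

theorem wt_bot {s : ℝ} (hs : s ≠ 0) : wt K s ⊥ = 0 := by
  unfold wt
  rw [Ideal.absNorm_bot, Nat.cast_zero, Real.zero_rpow (neg_ne_zero.mpr hs)]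

variable (K)

theorem tendsto_sum_idealCount :
    Tendsto (fun n : ℕ ↦ (∑ k ∈ Finset.Icc 1 n, (idealCount K k : ℝ)) / (n : ℝ)) atTop
      (𝓝 (dedekindZeta_residue K)) := by
  refine ((Ideal.tendsto_norm_le_div_atTop₀ K).comp tendsto_natCast_atTop_atTop).congr fun n ↦ ?_
  simp only [Function.comp_apply, Nat.cast_le, ← Nat.cast_sum, idealCount]
  congr
  rw [← add_left_inj 1, ← Ideal.card_norm_le_eq_card_norm_le_add_one,
    show Finset.Icc 1 n = Finset.Ioc 0 n from Finset.Icc_succ_left_eq_Ioc _ _,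
    show 1 = Nat.card {I : Ideal (𝓞 K) // Ideal.absNorm I = 0} by simp [Ideal.absNorm_eq_zero_iff],
    Finset.sum_Ioc_add_eq_sum_Icc (n.zero_le),
    ← Finset.card_preimage_eq_sum_card_image_eq (fun k _ ↦ Ideal.finite_setOfPred_absNorm_eq k)]
  simp [Set.coe_eq_subtype]

theorem lseriesSummable_idealCount {s : ℝ} (hs : 1 < s) :
    LSeriesSummable (fun n ↦ ((idealCount K n : ℝ) : ℂ)) (s : ℂ) := by
  refine LSeriesSummable_of_sum_norm_bigO_and_nonneg ?_ (fun _ ↦ Nat.cast_nonneg _) zero_le_one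
    (by simpa using hs)
  exact Asymptotics.isBigO_atTop_natCast_rpow_of_tendsto_div_rpow
    (by simpa using tendsto_sum_idealCount K)

/-- real form of the terms of the Dedekind zeta series. -/
theorem term_eq (s : ℝ) (hs : s ≠ 0) (n : ℕ) :
    LSeries.term (fun n ↦ ((idealCount K n : ℝ) : ℂ)) (s : ℂ) n =
      (((idealCount K n : ℝ) * (n : ℝ) ^ (-s) : ℝ) : ℂ) := by
  rcases eq_or_ne n 0 with rfl | hn
  · simp [Real.zero_rpow (neg_ne_zero.mpr hs)]
  · rw [LSeries.term_of_ne_zero hn, Complex.ofReal_mul, Real.rpow_neg (Nat.cast_nonneg _),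
      Complex.ofReal_inv, Complex.ofReal_cpow (Nat.cast_nonneg _), div_eq_mul_inv]
    simp

theorem summable_idealCount {s : ℝ} (hs : 1 < s) :
    Summable (fun n : ℕ ↦ (idealCount K n : ℝ) * (n : ℝ) ^ (-s)) := by
  have h := lseriesSummable_idealCount K hs
  unfold LSeriesSummable at h
  rw [funext (term_eq K s (by linarith))] at h
  exact Complex.summable_ofReal.mp h

theorem dedekindZeta_eq {s : ℝ} (hs : 1 < s) :
    dedekindZeta K (s : ℂ) = ((∑' n : ℕ, (idealCount K n : ℝ) * (n : ℝ) ^ (-s) : ℝ) : ℂ) := by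
  have : dedekindZeta K (s : ℂ) = LSeries (fun n ↦ ((idealCount K n : ℝ) : ℂ)) (s : ℂ) := by
    unfold dedekindZeta idealCount
    simp
  rw [this, LSeries, funext (term_eq K s (by linarith)), Complex.ofReal_tsum]

theorem hasSum_fiber (f : ℕ → ℝ) (hf : ∀ n, 0 ≤ f n)
    (h : Summable fun n : ℕ => (idealCount K n : ℝ) * f n) :
    HasSum (fun I : Ideal (𝓞 K) => f (Ideal.absNorm I)) (∑' n : ℕ, (idealCount K n : ℝ) * f n) := by
  classical
  let e := Equiv.sigmaFiberEquiv (fun I : Ideal (𝓞 K) => Ideal.absNorm I)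
  rw [← e.hasSum_iff]
  have hfib : ∀ n : ℕ, HasSum (fun c : {I : Ideal (𝓞 K) // Ideal.absNorm I = n} =>
      ((fun I : Ideal (𝓞 K) => f (Ideal.absNorm I)) ∘ e) ⟨n, c⟩) ((idealCount K n : ℝ) * f n) := by
    intro n
    have hfin : Finite {I : Ideal (𝓞 K) // Ideal.absNorm I = n} :=
      (Ideal.finite_setOfPred_absNorm_eq n).to_subtype
    have := Fintype.ofFinite {I : Ideal (𝓞 K) // Ideal.absNorm I = n}
    have h1 : (fun c : {I : Ideal (𝓞 K) // Ideal.absNorm I = n} =>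
      ((fun I : Ideal (𝓞 K) => f (Ideal.absNorm I)) ∘ e) ⟨n, c⟩) = fun _ => f n := by
      funext c
      simp [e, Equiv.sigmaFiberEquiv, c.2]
    rw [h1]
    have h2 := hasSum_fintype (fun _ : {I : Ideal (𝓞 K) // Ideal.absNorm I = n} => f n)
    simpa [idealCount, Nat.card_eq_fintype_card] using h2
  refine HasSum.sigma_of_hasSum h.hasSum hfib ?_
  refine (summable_sigma_of_nonneg (fun x => hf _)).mpr ⟨fun n => (hfib n).summable, ?_⟩
  exact h.congr fun n => (hfib n).tsum_eq.symm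

theorem summable_wt {s : ℝ} (hs : 1 < s) : Summable (wt K s) :=
  (hasSum_fiber K (fun n => (n : ℝ) ^ (-s)) (fun _ => Real.rpow_nonneg (Nat.cast_nonneg _) _)
    (summable_idealCount K hs)).summable

theorem tsum_wt {s : ℝ} (hs : 1 < s) :
    ∑' I, wt K s I = ∑' n : ℕ, (idealCount K n : ℝ) * (n : ℝ) ^ (-s) :=
  (hasSum_fiber K (fun n => (n : ℝ) ^ (-s)) (fun _ => Real.rpow_nonneg (Nat.cast_nonneg _) _)
    (summable_idealCount K hs)).tsum_eq

/-- `(s-1) Z(s) → ρ > 0`. -/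
theorem tendsto_sub_one_mul_tsum_wt :
    Tendsto (fun s : ℝ ↦ (s - 1) * ∑' I, wt K s I) (𝓝[>] 1) (𝓝 (dedekindZeta_residue K)) := by
  have h := tendsto_sub_one_mul_dedekindZeta_nhdsGT K
  have h2 : Tendsto (fun s : ℝ ↦ (((s - 1) * ∑' I, wt K s I : ℝ) : ℂ)) (𝓝[>] 1)
      (𝓝 ((dedekindZeta_residue K : ℝ) : ℂ)) := by
    refine h.congr' ?_
    filter_upwards [self_mem_nhdsWithin] with s hs
    rw [dedekindZeta_eq K hs, tsum_wt K hs]
    push_cast
    ring
  exact (Complex.continuous_re.tendsto _).comp h2 |>.congr (fun s => by simp)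

/-- ideals not contained in any member of `T`. -/
def cop (T : Finset (Ideal (𝓞 K))) : Set (Ideal (𝓞 K)) := {I | ∀ q ∈ T, ¬ I ≤ q}

theorem sieve {s : ℝ} (hs : 1 < s) (T : Finset (Ideal (𝓞 K)))
    (hT : ∀ q ∈ T, q.IsPrime ∧ q ≠ ⊥) :
    (∑' I, wt K s I) * ∏ q ∈ T, (1 - wt K s q) = ∑' I, (cop K T).indicator (wt K s) I := by
  classical
  induction T using Finset.induction_on with
  | empty =>
    have : cop K ∅ = Set.univ := by
      ext I; simp [cop]
    simp [this]
  | insert P T hPT ih =>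
    have hT' : ∀ q ∈ T, q.IsPrime ∧ q ≠ ⊥ := fun q hq => hT q (Finset.mem_insert_of_mem hq)
    obtain ⟨hPp, hP0⟩ := hT P (Finset.mem_insert_self _ _)
    have hPmax : P.IsMaximal := hPp.isMaximal hP0
    specialize ih hT'
    rw [Finset.prod_insert hPT, mul_left_comm, ih]
    set f := (cop K T).indicator (wt K s) with hf
    set g := (cop K (insert P T)).indicator (wt K s) with hg
    have hfs : Summable f := (summable_wt K hs).indicator _
    have hgs : Summable g := (summable_wt K hs).indicator _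
    have hmul : ∀ J, f (P * J) - g (P * J) = wt K s P * f J := by
      intro J
      have h1 : P * J ∉ cop K (insert P T) := by
        intro h
        exact h P (Finset.mem_insert_self _ _) Ideal.mul_le_left
      have h2 : P * J ∈ cop K T ↔ J ∈ cop K T := by
        constructor
        · intro h q hq hJq
          exact h q hq (le_trans Ideal.mul_le_right hJq)
        · intro h q hq hPJ
          rcases ((hT' q hq).1.mul_le).1 hPJ with h3 | h3
          · have := hPmax.eq_of_le (hT' q hq).1.ne_top h3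
            exact hPT (this ▸ hq)
          · exact h q hq h3
      rw [hg, Set.indicator_of_notMem h1, sub_zero, hf]
      by_cases hJ : J ∈ cop K T
      · rw [Set.indicator_of_mem hJ, Set.indicator_of_mem (h2.2 hJ), wt_mul]
      · rw [Set.indicator_of_notMem hJ, Set.indicator_of_notMem (fun h => hJ (h2.1 h)), mul_zero]
    have hsupp : Function.support (fun I => f I - g I) ⊆ Set.range (fun J => P * J) := by
      intro I hI
      by_contra hcon
      apply hI
      have hIP : ¬ I ≤ P := by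
        intro h
        obtain ⟨J, rfl⟩ := Ideal.dvd_iff_le.2 h
        exact hcon ⟨J, rfl⟩
      have : I ∈ cop K (insert P T) ↔ I ∈ cop K T := by
        simp [cop, hIP]
      simp only [hf, hg]
      by_cases hJ : I ∈ cop K T
      · rw [Set.indicator_of_mem hJ, Set.indicator_of_mem (this.2 hJ), sub_self]
      · rw [Set.indicator_of_notMem hJ, Set.indicator_of_notMem (fun h => hJ (this.1 h)), sub_self]
    have hinj : Function.Injective (fun J : Ideal (𝓞 K) => P * J) :=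
      mul_right_injective₀ hP0
    have key : ∑' I, (f I - g I) = wt K s P * ∑' I, f I := by
      rw [← hinj.tsum_eq hsupp, ← tsum_mul_left]
      exact tsum_congr hmul
    rw [hfs.tsum_sub hgs] at key
    linarith

theorem one_le_tsum_cop {s : ℝ} (hs : 1 < s) (T : Finset (Ideal (𝓞 K)))
    (hT : ∀ q ∈ T, q.IsPrime ∧ q ≠ ⊥) :
    1 ≤ ∑' I, (cop K T).indicator (wt K s) I := by
  have hmem : (⊤ : Ideal (𝓞 K)) ∈ cop K T := fun q hq h =>
    (hT q hq).1.ne_top (top_le_iff.1 h)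
  have h1 : (cop K T).indicator (wt K s) ⊤ = 1 := by
    rw [Set.indicator_of_mem hmem, wt_top]
  rw [← h1]
  exact ((summable_wt K hs).indicator _).le_tsum _
    (fun j _ => Set.indicator_nonneg (fun I _ => wt_nonneg s I) j)

theorem exists_tsum_cop_le_two {s : ℝ} (hs : 1 < s) :
    ∃ T : Finset (Ideal (𝓞 K)), (∀ q ∈ T, q.IsPrime ∧ q ≠ ⊥) ∧
      ∑' I, (cop K T).indicator (wt K s) I ≤ 2 := by
  classical
  obtain ⟨F, hF⟩ := ((tendsto_order.1 (tendsto_tsum_compl_atTop_zero (wt K s))).2 1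
    one_pos).exists
  set X : ℕ := F.sup (fun I => Ideal.absNorm I) with hX
  let T : Finset (Ideal (𝓞 K)) :=
    (Ideal.finite_setOfPred_absNorm_le (S := 𝓞 K) X).toFinset.filter (fun q => q.IsPrime ∧ q ≠ ⊥)
  refine ⟨T, fun q hq => (Finset.mem_filter.1 hq).2, ?_⟩
  have hle : ∀ I, (cop K T).indicator (wt K s) I ≤
      ({⊤} : Set (Ideal (𝓞 K))).indicator (wt K s) I + {x | x ∉ F}.indicator (wt K s) I := by
    intro I
    have n1 : 0 ≤ ({⊤} : Set (Ideal (𝓞 K))).indicator (wt K s) I :=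
      Set.indicator_nonneg (fun I _ => wt_nonneg s I) I
    have n2 : 0 ≤ {x | x ∉ F}.indicator (wt K s) I :=
      Set.indicator_nonneg (fun I _ => wt_nonneg s I) I
    by_cases hI : I ∈ cop K T
    · rw [Set.indicator_of_mem hI]
      rcases eq_or_ne I ⊤ with rfl | hItop
      · rw [Set.indicator_of_mem (Set.mem_singleton _)]
        linarith
      rcases eq_or_ne I ⊥ with rfl | hIbot
      · rw [wt_bot (by linarith)]
        linarith
      have hIF : I ∉ F := by
        intro hIF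
        obtain ⟨M, hM, hIM⟩ := Ideal.exists_le_maximal I hItop
        have hM0 : M ≠ ⊥ := fun h => hIbot (le_bot_iff.1 (h ▸ hIM))
        have h1 : Ideal.absNorm M ≤ Ideal.absNorm I :=
          Nat.le_of_dvd (Nat.pos_of_ne_zero (fun h => hIbot (Ideal.absNorm_eq_zero_iff.1 h)))
            (Ideal.absNorm_dvd_absNorm_of_le hIM)
        have h2 : Ideal.absNorm I ≤ X := Finset.le_sup (f := fun I => Ideal.absNorm I) hIF
        have hMT : M ∈ T := by
          refine Finset.mem_filter.2 ⟨?_, hM.isPrime, hM0⟩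
          rw [Set.Finite.mem_toFinset]
          exact le_trans h1 h2
        exact hI M hMT hIM
      rw [Set.indicator_of_mem (show I ∈ {x | x ∉ F} from hIF)]
      linarith
    · rw [Set.indicator_of_notMem hI]
      linarith
  have hs1 : Summable (({⊤} : Set (Ideal (𝓞 K))).indicator (wt K s)) :=
    (summable_wt K hs).indicator _
  have hs2 : Summable ({x | x ∉ F}.indicator (wt K s)) := (summable_wt K hs).indicator _
  calc ∑' I, (cop K T).indicator (wt K s) I
      ≤ ∑' I, (({⊤} : Set (Ideal (𝓞 K))).indicator (wt K s) I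
          + {x | x ∉ F}.indicator (wt K s) I) :=
        ((summable_wt K hs).indicator _).tsum_le_tsum hle (hs1.add hs2)
    _ = ∑' I, ({⊤} : Set (Ideal (𝓞 K))).indicator (wt K s) I
          + ∑' I, {x | x ∉ F}.indicator (wt K s) I := hs1.tsum_add hs2
    _ ≤ 1 + 1 := by
        refine add_le_add ?_ ?_
        · rw [← tsum_subtype, tsum_singleton, wt_top]
        · rw [← tsum_subtype]
          exact hF.le
    _ = 2 := by norm_num

theorem le_neg_log_one_sub {x : ℝ} (hx : x < 1) : x ≤ -Real.log (1 - x) := by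
  have := Real.log_le_sub_one_of_pos (show 0 < 1 - x by linarith)
  linarith

theorem neg_log_one_sub_le {x : ℝ} (hx0 : 0 ≤ x) (hx : x ≤ 1 / 2) :
    -Real.log (1 - x) ≤ x + 2 * x ^ 2 := by
  have hpos : 0 < 1 - x := by linarith
  have h1 := Real.log_le_sub_one_of_pos (inv_pos.2 hpos)
  rw [Real.log_inv] at h1
  have h2 : (1 - x)⁻¹ - 1 ≤ x + 2 * x ^ 2 := by
    rw [sub_le_iff_le_add, inv_le_iff_one_le_mul₀ hpos]
    nlinarith [mul_nonneg (mul_nonneg hx0 hx0) (show 0 ≤ 1 - 2 * x by linarith)]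
  linarith

theorem two_le_absNorm {q : Ideal (𝓞 K)} (h0 : q ≠ ⊥) (h1 : q ≠ ⊤) : 2 ≤ Ideal.absNorm q := by
  have a0 : Ideal.absNorm q ≠ 0 := fun h => h0 (Ideal.absNorm_eq_zero_iff.1 h)
  have a1 : Ideal.absNorm q ≠ 1 := fun h => h1 (Ideal.absNorm_eq_one_iff.1 h)
  omega

theorem wt_le_half {s : ℝ} (hs : 1 ≤ s) {q : Ideal (𝓞 K)} (h0 : q ≠ ⊥) (h1 : q ≠ ⊤) :
    wt K s q ≤ 1 / 2 := by
  have h2 : (2 : ℝ) ≤ (Ideal.absNorm q : ℝ) := by exact_mod_cast two_le_absNorm K h0 h1
  unfold wt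
  rw [Real.rpow_neg (by linarith), one_div]
  refine inv_anti₀ (by norm_num) ?_
  calc (2 : ℝ) ≤ (Ideal.absNorm q : ℝ) ^ (1 : ℝ) := by rwa [Real.rpow_one]
    _ ≤ (Ideal.absNorm q : ℝ) ^ s := Real.rpow_le_rpow_of_exponent_le (by linarith) hs

theorem wt_sq_le {s : ℝ} (hs : 1 ≤ s) (q : Ideal (𝓞 K)) : wt K s q ^ 2 ≤ wt K 2 q := by
  rcases eq_or_ne q ⊥ with rfl | h0
  · rw [wt_bot (by linarith), wt_bot (by norm_num)]; norm_num
  have h1 : (1 : ℝ) ≤ (Ideal.absNorm q : ℝ) := by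
    have : Ideal.absNorm q ≠ 0 := fun h => h0 (Ideal.absNorm_eq_zero_iff.1 h)
    exact_mod_cast Nat.one_le_iff_ne_zero.2 this
  unfold wt
  rw [← Real.rpow_natCast, ← Real.rpow_mul (by linarith)]
  exact Real.rpow_le_rpow_of_exponent_le h1 (by push_cast; linarith)

/-- the set of nonzero prime ideals -/
def primeSet : Set (Ideal (𝓞 K)) := {q | q.IsPrime ∧ q ≠ ⊥}

theorem tsum_wt_pos {s : ℝ} (hs : 1 < s) : 0 < ∑' I, wt K s I := by
  have h := one_le_tsum_cop K hs ∅ (by simp)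
  have : cop K ∅ = Set.univ := by
    ext I; simp [cop]
  rw [this] at h
  simp only [Set.indicator_univ] at h
  linarith

theorem log_tsum_wt_eq {s : ℝ} (hs : 1 < s) (T : Finset (Ideal (𝓞 K)))
    (hT : ∀ q ∈ T, q.IsPrime ∧ q ≠ ⊥) :
    Real.log (∑' I, wt K s I) = ∑ q ∈ T, (-Real.log (1 - wt K s q)) +
      Real.log (∑' I, (cop K T).indicator (wt K s) I) := by
  have hpos : ∀ q ∈ T, 1 - wt K s q ≠ 0 := by
    intro q hq
    have := wt_le_half K hs.le (hT q hq).2 (hT q hq).1.ne_top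
    linarith
  rw [← sieve K hs T hT, Real.log_mul (tsum_wt_pos K hs).ne' (Finset.prod_ne_zero_iff.2 hpos),
    Real.log_prod hpos, Finset.sum_neg_distrib]
  ring

theorem sum_wt_le_log {s : ℝ} (hs : 1 < s) (T : Finset (Ideal (𝓞 K)))
    (hT : ∀ q ∈ T, q.IsPrime ∧ q ≠ ⊥) :
    ∑ q ∈ T, wt K s q ≤ Real.log (∑' I, wt K s I) := by
  rw [log_tsum_wt_eq K hs T hT]
  have h1 : 0 ≤ Real.log (∑' I, (cop K T).indicator (wt K s) I) :=
    Real.log_nonneg (one_le_tsum_cop K hs T hT)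
  have h2 : ∑ q ∈ T, wt K s q ≤ ∑ q ∈ T, (-Real.log (1 - wt K s q)) := by
    refine Finset.sum_le_sum fun q hq => le_neg_log_one_sub ?_
    have := wt_le_half K hs.le (hT q hq).2 (hT q hq).1.ne_top
    linarith
  linarith

theorem tsum_primeSet_le_log {s : ℝ} (hs : 1 < s) :
    ∑' I, (primeSet K).indicator (wt K s) I ≤ Real.log (∑' I, wt K s I) := by
  classical
  refine Real.tsum_le_of_sum_le (fun I => Set.indicator_nonneg (fun I _ => wt_nonneg s I) I) ?_
  intro F
  rw [Finset.sum_indicator_eq_sum_filter]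
  exact sum_wt_le_log K hs _ (fun q hq => (Finset.mem_filter.1 hq).2)

theorem log_le_tsum_primeSet {s : ℝ} (hs : 1 < s) :
    Real.log (∑' I, wt K s I) ≤ ∑' I, (primeSet K).indicator (wt K s) I
      + (2 * ∑' I, wt K 2 I + Real.log 2) := by
  classical
  obtain ⟨T, hT, hT2⟩ := exists_tsum_cop_le_two K hs
  rw [log_tsum_wt_eq K hs T hT]
  have h1 : Real.log (∑' I, (cop K T).indicator (wt K s) I) ≤ Real.log 2 :=
    Real.log_le_log (by linarith [one_le_tsum_cop K hs T hT]) hT2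
  have h2 : ∑ q ∈ T, (-Real.log (1 - wt K s q)) ≤ ∑ q ∈ T, (wt K s q + 2 * wt K 2 q) := by
    refine Finset.sum_le_sum fun q hq => ?_
    have h3 := neg_log_one_sub_le (wt_nonneg s q)
      (wt_le_half K hs.le (hT q hq).2 (hT q hq).1.ne_top)
    have h4 := wt_sq_le K hs.le q
    linarith
  have h3 : ∑ q ∈ T, wt K s q ≤ ∑' I, (primeSet K).indicator (wt K s) I := by
    have : ∑ q ∈ T, wt K s q = ∑ q ∈ T, (primeSet K).indicator (wt K s) q :=
      Finset.sum_congr rfl fun q hq => (Set.indicator_of_mem (show q ∈ primeSet K from hT q hq) _).symm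
    rw [this]
    exact ((summable_wt K hs).indicator _).sum_le_tsum _
      (fun j _ => Set.indicator_nonneg (fun I _ => wt_nonneg s I) j)
  have h4 : ∑ q ∈ T, wt K 2 q ≤ ∑' I, wt K 2 I :=
    (summable_wt K (by norm_num)).sum_le_tsum _ (fun j _ => wt_nonneg 2 j)
  rw [Finset.sum_add_distrib, ← Finset.mul_sum] at h2
  linarith

/-- ideals of prime norm -/
def primeNormSet : Set (Ideal (𝓞 K)) := {q | (Ideal.absNorm q).Prime}

theorem primeNormSet_subset : primeNormSet K ⊆ primeSet K := by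
  intro q hq
  refine ⟨Ideal.isPrime_of_irreducible_absNorm hq, ?_⟩
  rintro rfl
  rw [primeNormSet, Set.mem_ofPred_eq, Ideal.absNorm_bot] at hq
  exact Nat.not_prime_zero hq

theorem hasSum_primeNormSet {s : ℝ} (hs : 1 < s) :
    HasSum ((primeNormSet K).indicator (wt K s))
      (∑' p : Nat.Primes, (idealCount K p : ℝ) * ((p : ℕ) : ℝ) ^ (-s)) := by
  classical
  have h1 : Summable fun n : ℕ => (idealCount K n : ℝ) *
      ({n : ℕ | n.Prime}.indicator (fun n : ℕ => (n : ℝ) ^ (-s)) n) := by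
    have := (summable_idealCount K hs).indicator {n : ℕ | n.Prime}
    refine this.congr fun n => ?_
    by_cases hn : n ∈ {n : ℕ | n.Prime}
    · rw [Set.indicator_of_mem hn, Set.indicator_of_mem hn]
    · rw [Set.indicator_of_notMem hn, Set.indicator_of_notMem hn, mul_zero]
  have h2 := hasSum_fiber K ({n : ℕ | n.Prime}.indicator (fun n : ℕ => (n : ℝ) ^ (-s)))
    (fun n => Set.indicator_nonneg (fun _ _ => Real.rpow_nonneg (Nat.cast_nonneg _) _) n) h1
  have h3 : (fun I : Ideal (𝓞 K) => {n : ℕ | n.Prime}.indicator (fun n : ℕ => (n : ℝ) ^ (-s))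
      (Ideal.absNorm I)) = (primeNormSet K).indicator (wt K s) := by
    funext I
    by_cases hI : I ∈ primeNormSet K
    · rw [Set.indicator_of_mem hI, Set.indicator_of_mem (show Ideal.absNorm I ∈ {n : ℕ | n.Prime}
        from hI)]
      rfl
    · rw [Set.indicator_of_notMem hI, Set.indicator_of_notMem (show Ideal.absNorm I ∉
        {n : ℕ | n.Prime} from hI)]
  rw [h3] at h2
  convert h2 using 1
  have h4 : ∑' p : Nat.Primes, (idealCount K p : ℝ) * ((p : ℕ) : ℝ) ^ (-s) =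
      ∑' n : ℕ, {n : ℕ | n.Prime}.indicator (fun n : ℕ => (idealCount K n : ℝ) * (n : ℝ) ^ (-s)) n :=
    tsum_subtype {n : ℕ | n.Prime} (fun n : ℕ => (idealCount K n : ℝ) * (n : ℝ) ^ (-s))
  rw [h4]
  refine tsum_congr fun n => ?_
  by_cases hn : n ∈ {n : ℕ | n.Prime}
  · rw [Set.indicator_of_mem hn, Set.indicator_of_mem hn]
  · rw [Set.indicator_of_notMem hn, Set.indicator_of_notMem hn, mul_zero]

theorem summable_primes {s : ℝ} (hs : 1 < s) :
    Summable (fun p : Nat.Primes => (idealCount K p : ℝ) * ((p : ℕ) : ℝ) ^ (-s)) :=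
  (summable_idealCount K hs).subtype {n : ℕ | n.Prime}

/-- the rational prime below a prime ideal -/
noncomputable def below (q : Ideal (𝓞 K)) : ℕ := Ideal.absNorm (Ideal.under ℤ q)

theorem wt_le_of_not_primeNorm {s : ℝ} (hs : 1 ≤ s) {q : Ideal (𝓞 K)} (hq : q ∈ primeSet K)
    (hq' : q ∉ primeNormSet K) : (below K q).Prime ∧ wt K s q ≤ ((below K q : ℕ) : ℝ) ^ (-2 : ℝ) := by
  obtain ⟨hqp, hq0⟩ := hq
  have := hqp
  have : NeZero q := ⟨hq0⟩
  have hc : (below K q).Prime := Nat.absNorm_under_prime q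
  have hlo : q.LiesOver (Ideal.span {((below K q : ℕ) : ℤ)}) := Int.liesOver_span_absNorm q
  refine ⟨hc, ?_⟩
  have hN : Ideal.absNorm q = below K q ^ _ := Ideal.absNorm_eq_pow_inertiaDeg' q hc
  set f := (Ideal.span {((below K q : ℕ) : ℤ)}).inertiaDeg' q with hf
  have hf0 : f ≠ 0 := by
    intro h
    rw [h, pow_zero] at hN
    exact hqp.ne_top (Ideal.absNorm_eq_one_iff.1 hN)
  have hf1 : f ≠ 1 := by
    intro h
    rw [h, pow_one] at hN
    exact hq' (show (Ideal.absNorm q).Prime from hN ▸ hc)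
  have hf2 : 2 ≤ f := by omega
  have hc1 : (1 : ℝ) ≤ (below K q : ℝ) := by exact_mod_cast hc.one_lt.le
  unfold wt
  rw [hN, Nat.cast_pow, ← Real.rpow_natCast, ← Real.rpow_mul (by linarith)]
  refine Real.rpow_le_rpow_of_exponent_le hc1 ?_
  have : (2 : ℝ) ≤ (f : ℝ) := by exact_mod_cast hf2
  nlinarith

theorem card_filter_below_le (F : Finset (Ideal (𝓞 K))) (hF : ∀ q ∈ F, q ∈ primeSet K) (p : ℕ)
    (hp : p.Prime) [DecidableEq (Ideal (𝓞 K))] :
    (F.filter (fun q => below K q = p)).card ≤ Module.finrank ℚ K := by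
  have hp' : Prime (p : ℤ) := Nat.prime_iff_prime_int.mp hp
  have hp0 : (Ideal.span {(p : ℤ)}) ≠ ⊥ := by
    simpa using hp.ne_zero
  have : (Ideal.span {(p : ℤ)}).IsMaximal :=
    ((Ideal.span_singleton_prime hp'.ne_zero).2 hp').isMaximal hp0
  refine le_trans (Finset.card_le_card ?_)
    (Ideal.card_primesOverFinset_le_finrank (𝓞 K) ℚ K hp0)
  intro q hq
  obtain ⟨hqF, hqp⟩ := Finset.mem_filter.1 hq
  rw [IsDedekindDomain.mem_primesOverFinset_iff hp0]
  refine ⟨(hF q hqF).1, ?_⟩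
  rw [← hqp]
  exact Int.liesOver_span_absNorm q

theorem tsum_diff_le {s : ℝ} (hs : 1 < s) :
    ∑' I, (primeSet K \ primeNormSet K).indicator (wt K s) I ≤
      (Module.finrank ℚ K : ℝ) * ∑' n : ℕ, (n : ℝ) ^ (-2 : ℝ) := by
  classical
  refine Real.tsum_le_of_sum_le (fun I => Set.indicator_nonneg (fun I _ => wt_nonneg s I) I) ?_
  intro F
  rw [Finset.sum_indicator_eq_sum_filter]
  set F' := F.filter (fun q => q ∈ primeSet K \ primeNormSet K) with hF'
  have hmem : ∀ q ∈ F', q ∈ primeSet K ∧ q ∉ primeNormSet K := fun q hq =>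
    (Finset.mem_filter.1 hq).2
  have hsum : Summable (fun n : ℕ => (n : ℝ) ^ (-2 : ℝ)) :=
    Real.summable_nat_rpow.2 (by norm_num)
  calc ∑ q ∈ F', wt K s q ≤ ∑ q ∈ F', ((below K q : ℕ) : ℝ) ^ (-2 : ℝ) :=
        Finset.sum_le_sum fun q hq => (wt_le_of_not_primeNorm K hs.le (hmem q hq).1 (hmem q hq).2).2
    _ = ∑ p ∈ F'.image (below K), ∑ q ∈ F' with below K q = p,
          ((below K q : ℕ) : ℝ) ^ (-2 : ℝ) :=
        (Finset.sum_fiberwise_of_maps_to (fun q hq => Finset.mem_image_of_mem _ hq) _).symm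
    _ ≤ ∑ p ∈ F'.image (below K), (Module.finrank ℚ K : ℝ) * (p : ℝ) ^ (-2 : ℝ) := by
        refine Finset.sum_le_sum fun p hp => ?_
        obtain ⟨q0, hq0, rfl⟩ := Finset.mem_image.1 hp
        have hpr := (wt_le_of_not_primeNorm K hs.le (hmem q0 hq0).1 (hmem q0 hq0).2).1
        have h1 : ∑ q ∈ F' with below K q = below K q0, ((below K q : ℕ) : ℝ) ^ (-2 : ℝ) =
            ∑ q ∈ F' with below K q = below K q0, ((below K q0 : ℕ) : ℝ) ^ (-2 : ℝ) :=
          Finset.sum_congr rfl fun q hq => by rw [(Finset.mem_filter.1 hq).2]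
        rw [h1, Finset.sum_const, nsmul_eq_mul]
        refine mul_le_mul_of_nonneg_right ?_ (Real.rpow_nonneg (Nat.cast_nonneg _) _)
        exact_mod_cast card_filter_below_le K F' (fun q hq => (hmem q hq).1) _ hpr
    _ = (Module.finrank ℚ K : ℝ) * ∑ p ∈ F'.image (below K), (p : ℝ) ^ (-2 : ℝ) := by
        rw [Finset.mul_sum]
    _ ≤ (Module.finrank ℚ K : ℝ) * ∑' n : ℕ, (n : ℝ) ^ (-2 : ℝ) := by
        refine mul_le_mul_of_nonneg_left ?_ (Nat.cast_nonneg _)
        exact hsum.sum_le_tsum _ (fun _ _ => Real.rpow_nonneg (Nat.cast_nonneg _) _)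

/-- **Prime ideal sum**: `∑_p a_K(p) p^{-s} = log (1/(s-1)) + O(1)` as `s → 1⁺`. -/
theorem exists_bound_primeIdealSum :
    ∃ C : ℝ, ∀ᶠ s : ℝ in 𝓝[>] 1,
      Summable (fun p : Nat.Primes =>
        (Nat.card {I : Ideal (𝓞 K) // Ideal.absNorm I = (p : ℕ)} : ℝ) * ((p : ℕ) : ℝ) ^ (-s)) ∧
      |∑' p : Nat.Primes,
        (Nat.card {I : Ideal (𝓞 K) // Ideal.absNorm I = (p : ℕ)} : ℝ) * ((p : ℕ) : ℝ) ^ (-s)
          - Real.log (1 / (s - 1))| ≤ C := by
  have hρ := dedekindZeta_residue_pos K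
  have hlog : Tendsto (fun s : ℝ ↦ Real.log ((s - 1) * ∑' I, wt K s I)) (𝓝[>] 1)
      (𝓝 (Real.log (dedekindZeta_residue K))) :=
    (tendsto_sub_one_mul_tsum_wt K).log hρ.ne'
  have hev : ∀ᶠ s : ℝ in 𝓝[>] 1, |Real.log ((s - 1) * ∑' I, wt K s I)| <
      |Real.log (dedekindZeta_residue K)| + 1 :=
    (tendsto_order.1 hlog.abs).2 _ (by linarith)
  refine ⟨(Module.finrank ℚ K : ℝ) * ∑' n : ℕ, (n : ℝ) ^ (-2 : ℝ)
    + (2 * ∑' I, wt K 2 I + Real.log 2) + (|Real.log (dedekindZeta_residue K)| + 1), ?_⟩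
  filter_upwards [hev, self_mem_nhdsWithin] with s hs1 hs
  have hs : 1 < s := hs
  refine ⟨summable_primes K hs, ?_⟩
  change |∑' p : Nat.Primes, (idealCount K p : ℝ) * ((p : ℕ) : ℝ) ^ (-s)
          - Real.log (1 / (s - 1))| ≤ _
  set P1 := ∑' p : Nat.Primes, (idealCount K p : ℝ) * ((p : ℕ) : ℝ) ^ (-s) with hP1
  set P := ∑' I, (primeSet K).indicator (wt K s) I with hP
  set Z := ∑' I, wt K s I with hZ
  have hZpos : 0 < Z := tsum_wt_pos K hs
  have e1 : ∑' I, (primeSet K \ primeNormSet K).indicator (wt K s) I = P - P1 := by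
    rw [Set.indicator_sdiff (primeNormSet_subset K)]
    have := ((summable_wt K hs).indicator (primeSet K)).tsum_sub
      ((summable_wt K hs).indicator (primeNormSet K))
    rw [(hasSum_primeNormSet K hs).tsum_eq] at this
    exact this
  have b1 : P - P1 ≤ (Module.finrank ℚ K : ℝ) * ∑' n : ℕ, (n : ℝ) ^ (-2 : ℝ) :=
    e1 ▸ tsum_diff_le K hs
  have b2 : 0 ≤ P - P1 := by
    rw [← e1]
    exact tsum_nonneg fun I => Set.indicator_nonneg (fun I _ => wt_nonneg s I) I
  have b3 : P ≤ Real.log Z := tsum_primeSet_le_log K hs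
  have b4 : Real.log Z ≤ P + (2 * ∑' I, wt K 2 I + Real.log 2) := log_le_tsum_primeSet K hs
  have e2 : Real.log ((s - 1) * Z) = Real.log Z - Real.log (1 / (s - 1)) := by
    rw [Real.log_mul (by linarith) hZpos.ne', one_div, Real.log_inv]
    ring
  rw [e2] at hs1
  have hs1' := abs_lt.1 hs1
  have n1 : 0 ≤ 2 * ∑' I, wt K 2 I + Real.log 2 := by linarith
  rw [abs_le]
  constructor <;> linarith [hs1'.1, hs1'.2]

end Fermat.Agent.Lib.Cheb
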