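import Mathlib
import Fermat.Prelude.Def_EllipticCurve_FrobeniusTrace
import Fermat.Agent.Lib.Frobenius

/-!
# Weak Chebotarev library, D: from number fields to `Gal(ℚ̄/ℚ)` in the language of the prelude
(owner: helper288)
-/

set_option autoImplicit false

namespace Fermat.Agent.Lib.Cheb

open NumberField

/-- The number field statement (C), for fields in `Type`. -/
def StatementC : Prop :=
  ∀ (L : Type) [Field L] [NumberField L] [IsGalois ℚ L] (s : L ≃ₐ[ℚ] L) (S : Finset ℕ),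
    ∃ p : ℕ, p.Prime ∧ p ∉ S ∧ ∃ (P : Ideal (𝓞 L)) (φ : L ≃ₐ[ℚ] L), P.IsPrime ∧ (p : 𝓞 L) ∈ P ∧
      P.inertia (L ≃ₐ[ℚ] L) = ⊥ ∧ IsArithFrobAt ℤ φ P ∧ Subgroup.zpowers φ = Subgroup.zpowers s

namespace Weak

/-- A Frobenius element at `A` satisfies `σ x ≡ x ^ ℓ` on `A`. -/
theorem sub_pow_mem_nonunits {K L : Type*} [Field K] [Field L] [Algebra K L]
    {A : ValuationSubring L} {σ : L ≃ₐ[K] L} {ℓ : ℕ}
    (h : A.IsFrobeniusAt σ ℓ) {x : L} (hx : x ∈ A) : σ x - x ^ ℓ ∈ A.nonunits := by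
  have h1 := h.smul_residue_eq (IsLocalRing.residue A ⟨x, hx⟩)
  rw [← IsLocalRing.ResidueField.residue_smul, ← map_pow, ← sub_eq_zero, ← map_sub,
    IsLocalRing.residue_eq_zero_iff, A.valuation_lt_one_iff] at h1
  exact A.mem_nonunits_iff.2 h1

variable (E : IntermediateField ℚ (AlgebraicClosure ℚ))

/-- the embedding of the ring of integers of `E` in `ℚ̄`. -/
noncomputable def emb : 𝓞 E →+* AlgebraicClosure ℚ :=
  (algebraMap E (AlgebraicClosure ℚ)).comp (algebraMap (𝓞 E) E)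

theorem emb_injective : Function.Injective (emb E) :=
  (algebraMap E (AlgebraicClosure ℚ)).injective.comp RingOfIntegers.coe_injective

theorem isIntegral_emb (x : 𝓞 E) : IsIntegral ℤ (emb E x) :=
  (RingOfIntegers.isIntegral x).map (emb E).toIntAlgHom

/-- a valuation subring of `ℚ̄` centred at a given proper ideal of `𝓞 E`. -/
theorem exists_valuationSubring (P : Ideal (𝓞 E)) (hP : P ≠ ⊤) :
    ∃ A : ValuationSubring (AlgebraicClosure ℚ), ∀ x ∈ P, emb E x ∈ A.nonunits := by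
  have hsurj : Function.Surjective (emb E).rangeRestrict := (emb E).rangeRestrict_surjective
  have hne : P.map (emb E).rangeRestrict ≠ ⊤ := by
    intro h
    have h1 : (1 : (emb E).range) ∈ P.map (emb E).rangeRestrict := by rw [h]; trivial
    obtain ⟨x, hx, hx1⟩ := (Ideal.mem_map_iff_of_surjective _ hsurj).1 h1
    have h2 : emb E x = emb E 1 := by
      have := congrArg Subtype.val hx1
      simpa using this
    rw [emb_injective E h2] at hx
    exact hP ((Ideal.eq_top_iff_one P).2 hx)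
  obtain ⟨B, -, hB⟩ := Ideal.image_subset_nonunits_valuationSubring _ hne
  exact ⟨B, fun x hx => hB ⟨(emb E).rangeRestrict x, Ideal.mem_map_of_mem _ hx, rfl⟩⟩

/-- if `P` is maximal the centre is exactly `P`. -/
theorem mem_of_emb_mem_nonunits (P : Ideal (𝓞 E)) (hP : P.IsMaximal)
    (A : ValuationSubring (AlgebraicClosure ℚ)) (hA : ∀ x ∈ P, emb E x ∈ A.nonunits)
    {x : 𝓞 E} (hx : emb E x ∈ A.nonunits) : x ∈ P := by
  by_contra hxP
  obtain ⟨y, z, hz, hyz⟩ := hP.exists_inv hxP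
  have h1 : emb E y * emb E x + emb E z = 1 := by
    rw [← map_mul, ← map_add, hyz, map_one]
  have hv1 : A.valuation (emb E x) < 1 := A.mem_nonunits_iff.1 hx
  have hv2 : A.valuation (emb E z) < 1 := A.mem_nonunits_iff.1 (hA z hz)
  have hv3 : A.valuation (emb E y) ≤ 1 :=
    (A.valuation_le_one_iff _).2 (Frobenius.mem_of_isIntegral_int A (isIntegral_emb E y))
  have hv4 : A.valuation (emb E y * emb E x) < 1 := by
    rw [map_mul]
    calc A.valuation (emb E y) * A.valuation (emb E x) ≤ 1 * A.valuation (emb E x) :=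
          mul_le_mul_left hv3 _
      _ = A.valuation (emb E x) := one_mul _
      _ < 1 := hv1
  have hv5 : A.valuation (1 : AlgebraicClosure ℚ) < 1 := by
    rw [← h1]
    exact lt_of_le_of_lt (A.valuation.map_add _ _) (max_lt hv4 hv2)
  rw [map_one] at hv5
  exact lt_irrefl _ hv5

end Weak

theorem weakChebotarev_of (hC : StatementC)
    (E : IntermediateField ℚ (AlgebraicClosure ℚ)) [FiniteDimensional ℚ E] [IsGalois ℚ E]
    (g : AlgebraicClosure ℚ ≃ₐ[ℚ] AlgebraicClosure ℚ) (S : Finset ℕ) :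
    ∃ ℓ : ℕ, ℓ.Prime ∧ ℓ ∉ S ∧ ∃ (A : ValuationSubring (AlgebraicClosure ℚ))
      (σ : AlgebraicClosure ℚ ≃ₐ[ℚ] AlgebraicClosure ℚ),
      A.LiesOverPrime ℓ ∧ A.IsFrobeniusAt σ ℓ ∧
      Subgroup.zpowers (AlgEquiv.restrictNormalHom E σ) =
        Subgroup.zpowers (AlgEquiv.restrictNormalHom E g) := by
  have : NumberField E := NumberField.of_module_finite ℚ E
  obtain ⟨p, hp, hpS, P, φ, hP, hpP, hin, hφ, hz⟩ := hC E (AlgEquiv.restrictNormalHom E g) S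
  have hp0 : (p : 𝓞 E) ≠ 0 := Nat.cast_ne_zero.2 hp.ne_zero
  have hP0 : P ≠ ⊥ := fun h => hp0 (by rw [h] at hpP; exact hpP)
  have hPmax : P.IsMaximal := hP.isMaximal hP0
  obtain ⟨A, hA⟩ := Weak.exists_valuationSubring E P hP.ne_top
  have hAp : A.LiesOverPrime p := by
    have h := hA _ hpP
    have h' : Weak.emb E (p : 𝓞 E) = (p : AlgebraicClosure ℚ) := map_natCast _ _
    rw [h'] at h
    exact h
  obtain ⟨σ, hσ⟩ := Frobenius.exists_isFrobeniusAt A p hp hAp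
  refine ⟨p, hp, hpS, A, σ, hAp, hσ, ?_⟩
  have hcard : Nat.card (ℤ ⧸ P.under ℤ) = p := by
    have hle : Ideal.span {(p : ℤ)} ≤ P.under ℤ := by
      rw [Ideal.span_singleton_le_iff_mem, Ideal.mem_comap]
      simpa using hpP
    have hmax : (Ideal.span {(p : ℤ)}).IsMaximal :=
      PrincipalIdealRing.isMaximal_of_irreducible (Nat.prime_iff_prime_int.1 hp).irreducible
    have hne : P.under ℤ ≠ ⊤ := (Ideal.IsPrime.under ℤ P).ne_top
    rw [← hmax.eq_of_le hne hle, Nat.card_congr (Int.quotientSpanNatEquivZMod p).toEquiv,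
      Nat.card_zmod]
  have hfrob : IsArithFrobAt ℤ (AlgEquiv.restrictNormalHom E σ) P := by
    intro x
    rw [hcard]
    apply Weak.mem_of_emb_mem_nonunits E P hPmax A hA
    have h1 := Weak.sub_pow_mem_nonunits hσ
      (Frobenius.mem_of_isIntegral_int A (Weak.isIntegral_emb E x))
    have h3 : Weak.emb E ((MulSemiringAction.toAlgHom ℤ (𝓞 E) (AlgEquiv.restrictNormalHom E σ)) x
        - x ^ p) = σ (Weak.emb E x) - Weak.emb E x ^ p := by
      rw [map_sub, map_pow]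
      congr 1
      exact AlgEquiv.restrictNormal_commutes σ E (x : E)
    rw [h3]
    exact h1
  have h2 := hfrob.mul_inv_mem_inertia hφ
  rw [hin, Subgroup.mem_bot, mul_inv_eq_one] at h2
  rw [h2, hz]

namespace Weak

theorem mem_fixingSubgroup_of (E : IntermediateField ℚ (AlgebraicClosure ℚ)) [Normal ℚ E]
    (τ : AlgebraicClosure ℚ ≃ₐ[ℚ] AlgebraicClosure ℚ)
    (h : AlgEquiv.restrictNormalHom E τ = 1) : τ ∈ E.fixingSubgroup := by
  rw [IntermediateField.mem_fixingSubgroup_iff]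
  intro x hx
  have h1 := AlgEquiv.restrictNormal_commutes τ E ⟨x, hx⟩
  have h2 : τ.restrictNormal E = 1 := h
  rw [h2] at h1
  exact h1.symm

theorem map_mem_zpowers (E : IntermediateField ℚ (AlgebraicClosure ℚ)) [Normal ℚ E]
    {M : Type*} [Group M] (ρ : (AlgebraicClosure ℚ ≃ₐ[ℚ] AlgebraicClosure ℚ) →* M)
    (hρ : E.fixingSubgroup ≤ ρ.ker) (a b : AlgebraicClosure ℚ ≃ₐ[ℚ] AlgebraicClosure ℚ)
    (h : AlgEquiv.restrictNormalHom E a ∈ Subgroup.zpowers (AlgEquiv.restrictNormalHom E b)) :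
    ρ a ∈ Subgroup.zpowers (ρ b) := by
  obtain ⟨k, hk⟩ := Subgroup.mem_zpowers_iff.1 h
  have h1 : (b ^ k)⁻¹ * a ∈ E.fixingSubgroup := by
    apply mem_fixingSubgroup_of
    rw [map_mul, map_inv, map_zpow, hk, inv_mul_cancel]
  have h2 := hρ h1
  rw [MonoidHom.mem_ker, map_mul, map_inv, map_zpow, inv_mul_eq_one] at h2
  exact Subgroup.mem_zpowers_iff.2 ⟨k, h2⟩

end Weak

/-- Version for a group homomorphism trivial on `Gal(ℚ̄/E)`. -/
theorem weakChebotarev_hom_of (hC : StatementC)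
    (E : IntermediateField ℚ (AlgebraicClosure ℚ)) [FiniteDimensional ℚ E] [IsGalois ℚ E]
    {M : Type*} [Group M] (ρ : (AlgebraicClosure ℚ ≃ₐ[ℚ] AlgebraicClosure ℚ) →* M)
    (hρ : E.fixingSubgroup ≤ ρ.ker)
    (g : AlgebraicClosure ℚ ≃ₐ[ℚ] AlgebraicClosure ℚ) (S : Finset ℕ) :
    ∃ ℓ : ℕ, ℓ.Prime ∧ ℓ ∉ S ∧ ∃ (A : ValuationSubring (AlgebraicClosure ℚ))
      (σ : AlgebraicClosure ℚ ≃ₐ[ℚ] AlgebraicClosure ℚ),
      A.LiesOverPrime ℓ ∧ A.IsFrobeniusAt σ ℓ ∧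
      Subgroup.zpowers (ρ σ) = Subgroup.zpowers (ρ g) := by
  obtain ⟨ℓ, hℓ, hS, A, σ, hA, hσ, hz⟩ := weakChebotarev_of hC E g S
  refine ⟨ℓ, hℓ, hS, A, σ, hA, hσ, le_antisymm ?_ ?_⟩
  · rw [Subgroup.zpowers_le]
    exact Weak.map_mem_zpowers E ρ hρ σ g (hz ▸ Subgroup.mem_zpowers _)
  · rw [Subgroup.zpowers_le]
    exact Weak.map_mem_zpowers E ρ hρ g σ (hz ▸ Subgroup.mem_zpowers _)

/-- Version for a group homomorphism with open kernel (Krull topology). -/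
theorem weakChebotarev_open_of (hC : StatementC)
    {M : Type*} [Group M] (ρ : (AlgebraicClosure ℚ ≃ₐ[ℚ] AlgebraicClosure ℚ) →* M)
    (hρ : IsOpen (ρ.ker : Set (AlgebraicClosure ℚ ≃ₐ[ℚ] AlgebraicClosure ℚ)))
    (g : AlgebraicClosure ℚ ≃ₐ[ℚ] AlgebraicClosure ℚ) (S : Finset ℕ) :
    ∃ ℓ : ℕ, ℓ.Prime ∧ ℓ ∉ S ∧ ∃ (A : ValuationSubring (AlgebraicClosure ℚ))
      (σ : AlgebraicClosure ℚ ≃ₐ[ℚ] AlgebraicClosure ℚ),
      A.LiesOverPrime ℓ ∧ A.IsFrobeniusAt σ ℓ ∧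
      Subgroup.zpowers (ρ σ) = Subgroup.zpowers (ρ g) := by
  have hgal := Frobenius.isGalois_rat
  have hn : (ρ.ker : Set (AlgebraicClosure ℚ ≃ₐ[ℚ] AlgebraicClosure ℚ)) ∈ nhds 1 :=
    hρ.mem_nhds (one_mem _)
  obtain ⟨E, hfd, hnor, hE⟩ := (krullTopology_mem_nhds_one_iff_of_normal _ _ _).1 hn
  have : IsGalois ℚ E := isGalois_iff.2 ⟨inferInstance, hnor⟩
  exact weakChebotarev_hom_of hC E ρ hE g S

/-- Version with an open subgroup `U` and natural exponents. -/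
theorem weakChebotarev_subgroup_of (hC : StatementC)
    (U : Subgroup (AlgebraicClosure ℚ ≃ₐ[ℚ] AlgebraicClosure ℚ))
    (hU : IsOpen (U : Set (AlgebraicClosure ℚ ≃ₐ[ℚ] AlgebraicClosure ℚ)))
    (g : AlgebraicClosure ℚ ≃ₐ[ℚ] AlgebraicClosure ℚ) (S : Finset ℕ) :
    ∃ (ℓ : ℕ) (A : ValuationSubring (AlgebraicClosure ℚ))
      (φ : AlgebraicClosure ℚ ≃ₐ[ℚ] AlgebraicClosure ℚ),
      ℓ.Prime ∧ ℓ ∉ S ∧ A.LiesOverPrime ℓ ∧ A.IsFrobeniusAt φ ℓ ∧
      ∃ u v : ℕ, φ⁻¹ * g ^ u ∈ U ∧ g⁻¹ * φ ^ v ∈ U := by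
  have hgal := Frobenius.isGalois_rat
  have hn : (U : Set (AlgebraicClosure ℚ ≃ₐ[ℚ] AlgebraicClosure ℚ)) ∈ nhds 1 :=
    hU.mem_nhds (one_mem _)
  obtain ⟨E, hfd, hnor, hE⟩ := (krullTopology_mem_nhds_one_iff_of_normal _ _ _).1 hn
  have : IsGalois ℚ E := isGalois_iff.2 ⟨inferInstance, hnor⟩
  obtain ⟨ℓ, hℓ, hS, A, σ, hA, hσ, hz⟩ := weakChebotarev_of hC E g S
  have key : ∀ a b : AlgebraicClosure ℚ ≃ₐ[ℚ] AlgebraicClosure ℚ,
      AlgEquiv.restrictNormalHom E a ∈ Subgroup.zpowers (AlgEquiv.restrictNormalHom E b) →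
      ∃ u : ℕ, a⁻¹ * b ^ u ∈ U := by
    intro a b h
    rw [← mem_powers_iff_mem_zpowers] at h
    obtain ⟨u, hu⟩ := h
    refine ⟨u, hE ?_⟩
    apply Weak.mem_fixingSubgroup_of
    rw [map_mul, map_inv, map_pow]
    exact inv_mul_eq_one.2 hu.symm
  obtain ⟨u, hu⟩ := key σ g (hz ▸ Subgroup.mem_zpowers _)
  obtain ⟨v, hv⟩ := key g σ (hz ▸ Subgroup.mem_zpowers _)
  exact ⟨ℓ, A, σ, hℓ, hS, hA, hσ, u, v, hu, hv⟩

end Fermat.Agent.Lib.Cheb
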